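import Fermat.Agent.LT.Separation.Moments
import Mathlib.Algebra.BigOperators.Finsupp.Basic
import Mathlib.Algebra.Polynomial.Eval.Degree

/-!
# Joint separation

If all mixed moments `∑ c i * z i ^ n * ∏ⱼ (λ i j) ^ (m j)` vanish (`n` large, bounded real `λ`),
then the total mass of every joint class `{z = w, λ = L}` with `w ≠ 0` vanishes.
-/

set_option autoImplicit false

namespace Fermat.Agent.LT.Separation

open Filter Topology

variable {ι J : Type*}

/-- The monomial `∏ⱼ (λ i j) ^ (m j)` as a complex number. -/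
noncomputable def eigMonomial (lam : ι → J → ℝ) (m : J →₀ ℕ) (i : ι) : ℂ :=
  m.prod fun j k => ((lam i j : ℝ) : ℂ) ^ k

theorem eigMonomial_single_add (lam : ι → J → ℝ) (m : J →₀ ℕ) (j : J) (k : ℕ) (i : ι) :
    eigMonomial lam (Finsupp.single j k + m) i = ((lam i j : ℝ) : ℂ) ^ k * eigMonomial lam m i := by
  simp only [eigMonomial]
  rw [Finsupp.prod_add_index' (fun _ => pow_zero _) (fun _ _ _ => pow_add _ _ _)]
  simp

theorem norm_eigMonomial_le (lam : ι → J → ℝ) (B : J → ℝ) (hB : ∀ i j, |lam i j| ≤ B j)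
    (m : J →₀ ℕ) (i : ι) : ‖eigMonomial lam m i‖ ≤ m.prod fun j k => B j ^ k := by
  simp only [eigMonomial, Finsupp.prod]
  rw [norm_prod]
  refine Finset.prod_le_prod (fun j _ => norm_nonneg _) fun j _ => ?_
  rw [norm_pow, Complex.norm_real, Real.norm_eq_abs]
  exact pow_le_pow_left₀ (abs_nonneg _) (hB i j) _

theorem summable_mul_eigMonomial (c : ι → ℂ) (lam : ι → J → ℝ) (B : J → ℝ)
    (hc : Summable fun i => ‖c i‖) (hB : ∀ i j, |lam i j| ≤ B j) (m : J →₀ ℕ) :
    Summable fun i => ‖c i * eigMonomial lam m i‖ := by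
  refine Summable.of_nonneg_of_le (fun i => norm_nonneg _) (fun i => ?_)
    (hc.mul_right (m.prod fun j k => B j ^ k))
  rw [norm_mul]
  exact mul_le_mul_of_nonneg_left (norm_eigMonomial_le lam B hB m i) (norm_nonneg _)

/-- One eigenvalue at a time. -/
theorem tsum_indicator_eq_zero (d : ι → ℂ) (t : ι → ℝ) (B L : ℝ)
    (hd : Summable fun i => ‖d i‖) (ht : ∀ i, |t i| ≤ B)
    (hm : ∀ k : ℕ, ∑' i, d i * ((t i : ℝ) : ℂ) ^ k = 0) :
    ∑' i, Set.indicator {i | t i = L} d i = 0 := by
  set M : ℝ := |B| + |L| + 1 with hM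
  have hM0 : 0 < M := by positivity
  set q : Polynomial ℝ := 1 - Polynomial.C (1 / M ^ 2) * (Polynomial.X - Polynomial.C L) ^ 2 with hq
  have hqe : ∀ x : ℝ, q.eval x = 1 - ((x - L) / M) ^ 2 := fun x => by
    simp [hq]
    field_simp
  have hrange : ∀ i, |(t i - L) / M| ≤ 1 := fun i => by
    rw [abs_div, abs_of_pos hM0, div_le_one hM0]
    calc |t i - L| ≤ |t i| + |L| := abs_sub _ _
      _ ≤ M := by rw [hM]; linarith [ht i, le_abs_self B]
  have hq01 : ∀ i, |q.eval (t i)| ≤ 1 := fun i => by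
    rw [hqe, abs_le]
    have h := (sq_le_one_iff_abs_le_one _).2 (hrange i)
    constructor <;> nlinarith [sq_nonneg ((t i - L) / M)]
  have hpoly : ∀ P : Polynomial ℝ, ∑' i, d i * ((P.eval (t i) : ℝ) : ℂ) = 0 := by
    intro P
    calc ∑' i, d i * ((P.eval (t i) : ℝ) : ℂ)
        = ∑' i, ∑ k ∈ Finset.range (P.natDegree + 1), d i * ((t i : ℝ) : ℂ) ^ k * (P.coeff k : ℂ) := by
          refine tsum_congr fun i => ?_
          rw [Polynomial.eval_eq_sum_range]
          push_cast
          rw [Finset.mul_sum]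
          exact Finset.sum_congr rfl fun k _ => by ring
      _ = ∑ k ∈ Finset.range (P.natDegree + 1), ∑' i, d i * ((t i : ℝ) : ℂ) ^ k * (P.coeff k : ℂ) := by
          refine Summable.tsum_finsetSum fun k _ => ?_
          suffices h : Summable fun i => d i * ((t i : ℝ) : ℂ) ^ k from h.mul_right _
          refine Summable.of_norm_bounded (hd.mul_right (|B| ^ k)) fun i => ?_
          rw [norm_mul, norm_pow, Complex.norm_real, Real.norm_eq_abs]
          exact mul_le_mul_of_nonneg_left
            (pow_le_pow_left₀ (abs_nonneg _) ((ht i).trans (le_abs_self B)) k) (norm_nonneg _)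
      _ = 0 := Finset.sum_eq_zero fun k _ => by rw [tsum_mul_right, hm k, zero_mul]
  have hbound : ∀ (N : ℕ) i, ‖d i * (((q ^ N).eval (t i) : ℝ) : ℂ)‖ ≤ ‖d i‖ := fun N i => by
    rw [norm_mul, Complex.norm_real, Real.norm_eq_abs, Polynomial.eval_pow, abs_pow]
    exact mul_le_of_le_one_right (norm_nonneg _) (pow_le_one₀ (abs_nonneg _) (hq01 i))
  have hpoint : ∀ i, Tendsto (fun N : ℕ => d i * (((q ^ N).eval (t i) : ℝ) : ℂ)) atTop
      (𝓝 (Set.indicator {i | t i = L} d i)) := by
    intro i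
    simp only [Polynomial.eval_pow, Complex.ofReal_pow]
    by_cases h : t i = L
    · rw [Set.indicator_of_mem (show i ∈ {i | t i = L} from h)]
      simp [hqe, h]
    · rw [Set.indicator_of_notMem (show i ∉ {i | t i = L} from h)]
      have hlt : ‖((q.eval (t i) : ℝ) : ℂ)‖ < 1 := by
        rw [Complex.norm_real, Real.norm_eq_abs, hqe, abs_lt]
        have h1 := (sq_le_one_iff_abs_le_one _).2 (hrange i)
        have h2 : 0 < ((t i - L) / M) ^ 2 :=
          sq_pos_of_ne_zero (div_ne_zero (sub_ne_zero.2 h) hM0.ne')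
        constructor <;> linarith
      simpa using (tendsto_pow_atTop_nhds_zero_of_norm_lt_one hlt).const_mul (d i)
  exact tendsto_nhds_unique (tendsto_tsum_of_dominated_convergence hd hpoint
    (Eventually.of_forall fun N i => hbound N i))
    (tendsto_const_nhds.congr fun N => (hpoly (q ^ N)).symm)

/-- Restricting to the classes of finitely many eigenvalues keeps all moments zero. -/
theorem tsum_indicator_finset_eq_zero (c : ι → ℂ) (lam : ι → J → ℝ) (B : J → ℝ) (L : J → ℝ)
    (hc : Summable fun i => ‖c i‖) (hB : ∀ i j, |lam i j| ≤ B j)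
    (hm : ∀ m : J →₀ ℕ, ∑' i, c i * eigMonomial lam m i = 0) (F : Finset J) (m : J →₀ ℕ) :
    ∑' i, Set.indicator {i | ∀ j ∈ F, lam i j = L j} c i * eigMonomial lam m i = 0 := by
  classical
  induction F using Finset.induction generalizing m with
  | empty => simpa using hm m
  | @insert a F _ ih =>
    have hs : Summable fun i => ‖Set.indicator {i | ∀ j ∈ F, lam i j = L j} c i‖ :=
      Summable.of_nonneg_of_le (fun i => norm_nonneg _) (fun i => norm_indicator_le_norm_self c i) hc
    have := tsum_indicator_eq_zero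
      (fun i => Set.indicator {i | ∀ j ∈ F, lam i j = L j} c i * eigMonomial lam m i)
      (fun i => lam i a) (B a) (L a) (summable_mul_eigMonomial _ lam B hs hB m) (fun i => hB i a)
      fun k => by
        rw [← ih (Finsupp.single a k + m)]
        exact tsum_congr fun i => by rw [eigMonomial_single_add]; ring
    rw [← this]
    refine tsum_congr fun i => ?_
    by_cases h1 : lam i a = L a <;> by_cases h2 : ∀ j ∈ F, lam i j = L j <;>
      simp [Set.indicator_apply, h1, h2]

/-- All joint classes have zero mass. -/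
theorem tsum_indicator_eigenclass_eq_zero (c : ι → ℂ) (lam : ι → J → ℝ) (B : J → ℝ) (L : J → ℝ)
    (hc : Summable fun i => ‖c i‖) (hB : ∀ i j, |lam i j| ≤ B j)
    (hm : ∀ m : J →₀ ℕ, ∑' i, c i * eigMonomial lam m i = 0) :
    ∑' i, Set.indicator {i | lam i = L} c i = 0 := by
  classical
  refine norm_le_zero_iff.1 (le_of_forall_pos_le_add fun ε hε => ?_)
  obtain ⟨s, hs⟩ := (tendsto_order.1 (tendsto_tsum_compl_atTop_zero fun i => ‖c i‖)).2 ε hε |>.exists
  let w : ι → Finset J := fun i =>
    if h : lam i = L then ∅ else {(Function.ne_iff.1 h).choose}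
  set F := s.biUnion w with hF
  have hF0 : ∑' i, Set.indicator {i | ∀ j ∈ F, lam i j = L j} c i = 0 := by
    simpa [eigMonomial] using tsum_indicator_finset_eq_zero c lam B L hc hB hm F 0
  have hind : ∀ S : Set ι, Summable (Set.indicator S c) := fun S => hc.of_norm.indicator S
  have hdiff : ∀ i, ‖Set.indicator {i | lam i = L} c i -
      Set.indicator {i | ∀ j ∈ F, lam i j = L j} c i‖ ≤
        Set.indicator {i | i ∉ s} (fun i => ‖c i‖) i := by
    intro i
    by_cases hL : lam i = L
    · rw [Set.indicator_of_mem (show i ∈ {i | lam i = L} from hL),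
        Set.indicator_of_mem (show i ∈ {i | ∀ j ∈ F, lam i j = L j} from fun j _ => by rw [hL])]
      simp only [sub_self, norm_zero]
      exact Set.indicator_nonneg (fun i _ => norm_nonneg _) i
    · rw [Set.indicator_of_notMem (show i ∉ {i | lam i = L} from hL), zero_sub, norm_neg]
      by_cases hF' : ∀ j ∈ F, lam i j = L j
      · rw [Set.indicator_of_mem (show i ∈ {i | ∀ j ∈ F, lam i j = L j} from hF')]
        by_cases his : i ∈ s
        · exact absurd (hF' _ (Finset.mem_biUnion.2 ⟨i, his, by simp [w, hL]⟩))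
            (Function.ne_iff.1 hL).choose_spec
        · rw [Set.indicator_of_mem (show i ∈ {i | i ∉ s} from his)]
      · rw [Set.indicator_of_notMem (show i ∉ {i | ∀ j ∈ F, lam i j = L j} from hF'), norm_zero]
        exact Set.indicator_nonneg (fun i _ => norm_nonneg _) i
  rw [zero_add, ← sub_zero (∑' i, Set.indicator {i | lam i = L} c i), ← hF0,
    ← (hind _).tsum_sub (hind _)]
  refine (tsum_of_norm_bounded (hc.indicator {i | i ∉ s}).hasSum hdiff).trans ?_
  rw [← tsum_subtype {i | i ∉ s} fun i => ‖c i‖]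
  exact hs.le

/-- **Joint separation.** -/
theorem tsum_indicator_class_eq_zero (c z : ι → ℂ) (lam : ι → J → ℝ) (R : ℝ) (B : J → ℝ) (n₀ : ℕ)
    (hc : Summable fun i => ‖c i‖) (hR : ∀ i, ‖z i‖ ≤ R)
    (hz : ∀ i, (z i).im = 0 ∨ ‖z i‖ = 1) (hB : ∀ i j, |lam i j| ≤ B j)
    (hm : ∀ (m : J →₀ ℕ) (n : ℕ), n₀ ≤ n → ∑' i, c i * z i ^ n * eigMonomial lam m i = 0)
    {w : ℂ} (hw : w ≠ 0) (L : J → ℝ) :
    ∑' i, Set.indicator {i | z i = w ∧ lam i = L} c i = 0 := by
  have hstep : ∀ m : J →₀ ℕ,
      ∑' i, Set.indicator {i | z i = w} c i * eigMonomial lam m i = 0 := fun m => by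
    have h := fibreSum_eq_zero_of_moments (fun i => c i * eigMonomial lam m i) z R n₀
      (summable_mul_eigMonomial c lam B hc hB m) hR hz
      (fun n hn => by rw [← hm m n hn]; exact tsum_congr fun i => by ring) hw
    rw [← h, fibreSum]
    change _ = ∑' i : {i | z i = w}, _
    rw [tsum_subtype {i | z i = w} fun i => c i * eigMonomial lam m i]
    exact tsum_congr fun i => by
      by_cases hi : z i = w <;> simp [hi]
  have hs : Summable fun i => ‖Set.indicator {i | z i = w} c i‖ :=
    Summable.of_nonneg_of_le (fun i => norm_nonneg _) (fun i => norm_indicator_le_norm_self c i) hc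
  rw [← tsum_indicator_eigenclass_eq_zero _ lam B L hs hB hstep]
  refine tsum_congr fun i => ?_
  by_cases h1 : z i = w <;> by_cases h2 : lam i = L <;> simp [h1, h2]

/-- Comparison of two sides: equal mixed moments give equal class sums. -/
theorem tsum_indicator_class_eq {κ : Type*} (c z : ι → ℂ) (lam : ι → J → ℝ)
    (c' z' : κ → ℂ) (lam' : κ → J → ℝ) (R : ℝ) (B : J → ℝ) (n₀ : ℕ)
    (hc : Summable fun i => ‖c i‖) (hR : ∀ i, ‖z i‖ ≤ R)
    (hz : ∀ i, (z i).im = 0 ∨ ‖z i‖ = 1) (hB : ∀ i j, |lam i j| ≤ B j)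
    (hc' : Summable fun i => ‖c' i‖) (hR' : ∀ i, ‖z' i‖ ≤ R)
    (hz' : ∀ i, (z' i).im = 0 ∨ ‖z' i‖ = 1) (hB' : ∀ i j, |lam' i j| ≤ B j)
    (hm : ∀ (m : J →₀ ℕ) (n : ℕ), n₀ ≤ n → ∑' i, c i * z i ^ n * eigMonomial lam m i =
      ∑' i, c' i * z' i ^ n * eigMonomial lam' m i)
    {w : ℂ} (hw : w ≠ 0) (L : J → ℝ) :
    ∑' i, Set.indicator {i | z i = w ∧ lam i = L} c i =
      ∑' i, Set.indicator {i | z' i = w ∧ lam' i = L} c' i := by
  have hsn : Summable fun i => ‖Sum.elim c (fun i => -c' i) i‖ :=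
    (HasSum.sum (f := fun i => ‖Sum.elim c (fun i => -c' i) i‖) (a := ∑' i, ‖c i‖)
      (b := ∑' i, ‖c' i‖) hc.hasSum
      (HasSum.congr_fun hc'.hasSum fun i => by simp)).summable
  have hterm : ∀ (m : J →₀ ℕ) (n : ℕ),
      Summable (fun i => c i * z i ^ n * eigMonomial lam m i) ∧
      Summable (fun i => c' i * z' i ^ n * eigMonomial lam' m i) := by
    refine fun m n => ⟨?_, ?_⟩
    · refine Summable.of_norm_bounded ((summable_mul_eigMonomial c lam B hc hB m).mul_right (R ^ n))
        fun i => ?_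
      rw [mul_right_comm, norm_mul _ (z i ^ n), norm_pow]
      exact mul_le_mul_of_nonneg_left (pow_le_pow_left₀ (norm_nonneg _) (hR i) n) (norm_nonneg _)
    · refine Summable.of_norm_bounded
        ((summable_mul_eigMonomial c' lam' B hc' hB' m).mul_right (R ^ n)) fun i => ?_
      rw [mul_right_comm, norm_mul _ (z' i ^ n), norm_pow]
      exact mul_le_mul_of_nonneg_left (pow_le_pow_left₀ (norm_nonneg _) (hR' i) n) (norm_nonneg _)
  have key := tsum_indicator_class_eq_zero (Sum.elim c fun i => -c' i) (Sum.elim z z')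
    (Sum.elim lam lam') R B n₀ hsn (fun i => by cases i <;> simp [hR, hR'])
    (fun i => by cases i <;> simp [hz, hz']) (fun i j => by cases i <;> simp [hB, hB'])
    (fun m n hn => by
      rw [← sub_eq_zero.2 (hm m n hn), sub_eq_add_neg, ← tsum_neg]
      refine (HasSum.sum (f := fun i : ι ⊕ κ => Sum.elim c (fun i => -c' i) i *
        Sum.elim z z' i ^ n * eigMonomial (Sum.elim lam lam') m i) (a := ∑' i, c i * z i ^ n * eigMonomial lam m i)
        (b := ∑' i, -(c' i * z' i ^ n * eigMonomial lam' m i)) (hterm m n).1.hasSum ?_).tsum_eq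
      refine HasSum.congr_fun (hterm m n).2.neg.hasSum fun i => ?_
      simp [eigMonomial])
    hw L
  rw [← sub_eq_zero, ← key, sub_eq_add_neg, ← tsum_neg]
  refine ((HasSum.sum (f := Set.indicator {i | Sum.elim z z' i = w ∧ Sum.elim lam lam' i = L}
    (Sum.elim c fun i => -c' i)) (hc.of_norm.indicator _).hasSum ?_).tsum_eq).symm
  refine HasSum.congr_fun (hc'.of_norm.indicator _).neg.hasSum fun i => ?_
  by_cases h : z' i = w ∧ lam' i = L <;> simp [h]

end Fermat.Agent.LT.Separation
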