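import Mathlib.Analysis.Normed.Group.Tannery
import Mathlib.Analysis.Complex.LocallyUniformLimit
import Mathlib.Analysis.Complex.CauchyIntegral
import Mathlib.Analysis.Complex.Convex
import Mathlib.Analysis.Analytic.IsolatedZeros
import Mathlib.Analysis.SpecificLimits.Normed
import Mathlib.Topology.Algebra.InfiniteSum.Group

/-!
# Separation by moments

An absolutely summable family `c i` placed at points `z i`, each on the unit circle or on the real
line and bounded, is determined on `z ≠ 0` by its moments `∑ c i * z i ^ n` with `n` large.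
-/

set_option autoImplicit false

namespace Fermat.Agent.LT.Separation

open Filter Topology Complex Metric

section Fibre

variable {ι : Type*}

/-- The sum of `c` over the fibre of `z` at `v`. -/
noncomputable def fibreSum {α : Type*} (z : ι → α) (c : ι → ℂ) (v : α) : ℂ :=
  ∑' i : {i // z i = v}, c i

theorem hasSum_fibreSum_mul {α : Type*} (z : ι → α) (c : ι → ℂ) (g : α → ℂ)
    (h : Summable fun i => c i * g (z i)) (hc : Summable c) :
    HasSum (fun v => fibreSum z c v * g v) (∑' i, c i * g (z i)) := by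
  have h1 := h.hasSum
  rw [← (Equiv.sigmaFiberEquiv z).hasSum_iff] at h1
  refine h1.sigma fun v => ?_
  have h2 : HasSum (fun i : {i // z i = v} => c i) (fibreSum z c v) := (hc.subtype _).hasSum
  refine HasSum.congr_fun (h2.mul_right (g v)) fun i => ?_
  simp [Equiv.sigmaFiberEquiv, i.2]

theorem summable_norm_fibreSum {α : Type*} (z : ι → α) (c : ι → ℂ)
    (hc : Summable fun i => ‖c i‖) : Summable fun v => ‖fibreSum z c v‖ := by
  have h1 := (Equiv.sigmaFiberEquiv z).summable_iff.2 hc
  have h2 := h1.sigma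
  refine Summable.of_nonneg_of_le (fun v => norm_nonneg _) (fun v => ?_) h2
  exact norm_tsum_le_tsum_norm (hc.subtype _)

end Fibre

variable {C : ℂ → ℂ} {R r ρ : ℝ}

theorem norm_one_sub_mul_ge (v ζ : ℂ) : 1 - ‖ζ‖ * ‖v‖ ≤ ‖1 - ζ * v‖ := by
  have := norm_sub_norm_le (1 : ℂ) (ζ * v)
  rwa [norm_one, norm_mul] at this

/-- The generating function vanishes near `0`. -/
theorem tsum_div_eq_zero_of_small (hC : Summable fun v => ‖C v‖)
    (hR : ∀ v, C v ≠ 0 → ‖v‖ ≤ R) (hR0 : 0 ≤ R) (hm : ∀ n : ℕ, ∑' v, C v * v ^ n = 0)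
    {ζ : ℂ} (hζ : ‖ζ‖ * R < 1) : ∑' v, C v / (1 - ζ * v) = 0 := by
  set q := ‖ζ‖ * R with hq
  have hq0 : 0 ≤ q := mul_nonneg (norm_nonneg _) hR0
  have hden : ∀ v, C v ≠ 0 → 1 - q ≤ ‖1 - ζ * v‖ := fun v hv =>
    le_trans (by have := mul_le_mul_of_nonneg_left (hR v hv) (norm_nonneg ζ); linarith)
      (norm_one_sub_mul_ge v ζ)
  have hterm : ∀ (N : ℕ) v,
      ‖C v * (ζ * v) ^ N / (1 - ζ * v)‖ ≤ ‖C v‖ * (q ^ N / (1 - q)) := by
    intro N v
    by_cases hv : C v = 0
    · simp [hv]
    rw [norm_div, norm_mul, norm_pow, norm_mul, mul_div_assoc]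
    refine mul_le_mul_of_nonneg_left ?_ (norm_nonneg _)
    exact div_le_div₀ (pow_nonneg hq0 N) (pow_le_pow_left₀ (by positivity)
      (mul_le_mul_of_nonneg_left (hR v hv) (norm_nonneg _)) N) (by linarith) (hden v hv)
  have hsum : ∀ N, Summable fun v => C v * (ζ * v) ^ N / (1 - ζ * v) := fun N =>
    Summable.of_norm_bounded (hC.mul_right _) (hterm N)
  have hstep : ∀ N, (∑' v, C v / (1 - ζ * v)) = ∑' v, C v * (ζ * v) ^ N / (1 - ζ * v) := by
    intro N
    induction N with
    | zero => simp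
    | succ N ih =>
      rw [ih]
      have hmom : Summable fun v => C v * v ^ N * ζ ^ N := by
        refine Summable.of_norm_bounded (hC.mul_right (q ^ N)) fun v => ?_
        by_cases hv : C v = 0
        · simp [hv]
        rw [mul_assoc, norm_mul, norm_mul, norm_pow, norm_pow, ← mul_pow, mul_comm ‖v‖]
        exact mul_le_mul_of_nonneg_left (pow_le_pow_left₀ (by positivity)
          (mul_le_mul_of_nonneg_left (hR v hv) (norm_nonneg _)) N) (norm_nonneg _)
      have hzero : ∑' v, C v * v ^ N * ζ ^ N = 0 := by rw [tsum_mul_right, hm N, zero_mul]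
      calc ∑' v, C v * (ζ * v) ^ N / (1 - ζ * v)
          = ∑' v, (C v * v ^ N * ζ ^ N + C v * (ζ * v) ^ (N + 1) / (1 - ζ * v)) := by
            refine tsum_congr fun v => ?_
            by_cases hv : C v = 0
            · simp [hv]
            have hne : 1 - ζ * v ≠ 0 := fun h => by
              have := hden v hv
              rw [h, norm_zero] at this
              linarith
            field_simp
            ring
        _ = _ := by rw [hmom.tsum_add (hsum _), hzero, zero_add]
  have hlim : Tendsto (fun N => (∑' v, ‖C v‖) * (q ^ N / (1 - q))) atTop (𝓝 0) := by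
    simpa using ((tendsto_pow_atTop_nhds_zero_of_lt_one hq0 hζ).div_const (1 - q)).const_mul
      (∑' v, ‖C v‖)
  refine norm_le_zero_iff.1 (ge_of_tendsto' hlim fun N => ?_)
  rw [hstep N, ← tsum_mul_right]
  exact tsum_of_norm_bounded (hC.mul_right _).hasSum (hterm N)

/-- The generating function continues by `0` into the upper half of the disc of radius `ρ`. -/
theorem tsum_div_eq_zero_of_upper (hC : Summable fun v => ‖C v‖)
    (hR : ∀ v, C v ≠ 0 → ‖v‖ ≤ R) (hR0 : 0 ≤ R) (hm : ∀ n : ℕ, ∑' v, C v * v ^ n = 0)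
    (hsupp : ∀ v, C v ≠ 0 → v.im = 0 ∨ ‖v‖ ≤ r) (hρ : 0 < ρ) (hρr : ρ * r < 1)
    {ζ : ℂ} (hζ : ‖ζ‖ < ρ) (him : 0 < ζ.im) : ∑' v, C v / (1 - ζ * v) = 0 := by
  set η := min ζ.im (min (ρ / 2) (1 / (2 * (R + 1)))) with hη
  have hη0 : 0 < η := by
    simp only [hη, lt_min_iff]
    exact ⟨him, by positivity, by positivity⟩
  set δ := η / 2 with hδ
  have hδ0 : 0 < δ := by positivity
  set U : Set ℂ := ball 0 ρ ∩ {s | δ < s.im} with hU
  set M := min (1 / 2) (min (1 - ρ * r) (δ / (2 * ρ))) with hM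
  have hM0 : 0 < M := by
    simp only [hM, lt_min_iff]
    exact ⟨by norm_num, by linarith, by positivity⟩
  have hlow : ∀ v, C v ≠ 0 → ∀ s ∈ U, M ≤ ‖1 - s * v‖ := by
    intro v hv s hs
    have hs1 : ‖s‖ < ρ := mem_ball_zero_iff.1 hs.1
    have hs2 : δ < s.im := hs.2
    rcases hsupp v hv with hreal | hle
    · by_cases hsmall : ρ * ‖v‖ ≤ 1 / 2
      · refine (min_le_left _ _).trans (le_trans ?_ (norm_one_sub_mul_ge v s))
        nlinarith [norm_nonneg v, norm_nonneg s]
      · refine ((min_le_right _ _).trans (min_le_right _ _)).trans ?_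
        refine le_trans ?_ (abs_im_le_norm _)
        have hv' : ‖v‖ = |v.re| := (abs_re_eq_norm.2 hreal).symm
        rw [sub_im, one_im, mul_im, hreal, mul_zero, zero_add, zero_sub, abs_neg, abs_mul, ← hv',
          abs_of_pos (hδ0.trans hs2), div_le_iff₀ (by positivity)]
        rw [not_le] at hsmall
        nlinarith [norm_nonneg v]
    · refine ((min_le_right _ _).trans (min_le_left _ _)).trans
        (le_trans ?_ (norm_one_sub_mul_ge v s))
      nlinarith [norm_nonneg v, norm_nonneg s]
  have hUo : IsOpen U := isOpen_ball.inter (isOpen_lt continuous_const continuous_im)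
  have hUc : IsPreconnected U :=
    ((convex_ball _ _).inter (convex_halfSpace_im_gt δ)).isPreconnected
  have hdiff : DifferentiableOn ℂ (fun s => ∑' v, C v / (1 - s * v)) U := by
    refine differentiableOn_tsum_of_summable_norm (u := fun v => ‖C v‖ / M) (hC.div_const M)
      (fun v => ?_) hUo fun v s hs => ?_
    · by_cases hv : C v = 0
      · simp only [hv, zero_div]; exact differentiableOn_const _
      · refine (differentiableOn_const _).div ?_ fun s hs h => ?_
        · exact (differentiableOn_const _).sub (differentiableOn_id.mul_const v)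
        · have := hlow v hv s hs
          rw [h, norm_zero] at this
          linarith
    · by_cases hv : C v = 0
      · simp [hv]
      · rw [norm_div]
        exact div_le_div_of_nonneg_left (norm_nonneg _) hM0 (hlow v hv s hs)
  have hna : ‖(η : ℂ) * I‖ = η := by
    rw [norm_mul, norm_I, mul_one, norm_real, Real.norm_of_nonneg hη0.le]
  have haU : (η : ℂ) * I ∈ U := by
    refine ⟨mem_ball_zero_iff.2 ?_, ?_⟩
    · rw [hna]
      have : η ≤ ρ / 2 := (min_le_right _ _).trans (min_le_left _ _)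
      linarith
    · simp only [Set.mem_ofPred_eq, mul_im, ofReal_re, ofReal_im, I_re, I_im]
      linarith
  have hev : (fun s => ∑' v, C v / (1 - s * v)) =ᶠ[𝓝 ((η : ℂ) * I)] 0 := by
    have hlt : ‖(η : ℂ) * I‖ * R < 1 := by
      rw [hna]
      have : η ≤ 1 / (2 * (R + 1)) := (min_le_right _ _).trans (min_le_right _ _)
      rw [le_div_iff₀ (by positivity)] at this
      nlinarith
    have hopen : IsOpen {s : ℂ | ‖s‖ * R < 1} :=
      isOpen_lt (continuous_norm.mul continuous_const) continuous_const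
    filter_upwards [hopen.mem_nhds hlt] with s hs
    exact tsum_div_eq_zero_of_small hC hR hR0 hm hs
  have hζU : ζ ∈ U := ⟨mem_ball_zero_iff.2 hζ, by
    have : η ≤ ζ.im := min_le_left _ _
    simp only [Set.mem_ofPred_eq]
    linarith⟩
  exact (hdiff.analyticOnNhd hUo).eqOn_zero_of_preconnected_of_eventuallyEq_zero hUc haU hev hζU

/-- A real point outside the disc of radius `r` carries no mass. -/
theorem eq_zero_of_real (hC : Summable fun v => ‖C v‖)
    (hR : ∀ v, C v ≠ 0 → ‖v‖ ≤ R) (hR0 : 0 ≤ R) (hm : ∀ n : ℕ, ∑' v, C v * v ^ n = 0)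
    (hr : 0 ≤ r) (hsupp : ∀ v, C v ≠ 0 → v.im = 0 ∨ ‖v‖ ≤ r)
    {w : ℝ} (hw : r < |w|) : C w = 0 := by
  have hw0 : w ≠ 0 := fun h => by rw [h, abs_zero] at hw; linarith
  set ρ := 2 / (|w| + r) with hρ
  have hρ0 : 0 < ρ := by positivity
  have hρr : ρ * r < 1 := by rw [hρ, div_mul_eq_mul_div, div_lt_one (by positivity)]; linarith
  have hρw : 1 < ρ * |w| := by
    rw [hρ, div_mul_eq_mul_div, lt_div_iff₀ (by positivity)]; linarith
  set ζ : ℝ → ℂ := fun η => ((1 / w : ℝ) : ℂ) + η * I with hζ
  set K : ℝ := max 2 (1 / (1 - ρ * r)) with hK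
  have hnorm : ∀ᶠ η in 𝓝[>] (0 : ℝ), ‖ζ η‖ < ρ ∧ 0 < η ∧ η * |w| ≤ 1 := by
    have hc : Continuous fun η : ℝ => ‖ζ η‖ := by fun_prop
    have h1 : ‖ζ 0‖ < ρ := by
      simp only [hζ, ofReal_zero, zero_mul, add_zero, norm_real, Real.norm_eq_abs]
      rw [abs_div, abs_one, div_lt_iff₀ (abs_pos.2 hw0)]
      exact hρw
    refine ((hc.tendsto 0).eventually_lt_const h1).filter_mono nhdsWithin_le_nhds |>.and
      (eventually_mem_nhdsWithin.and ?_)
    have hc2 : Continuous fun η : ℝ => η * |w| := by fun_prop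
    exact ((hc2.tendsto 0).eventually_le_const (by simp)).filter_mono nhdsWithin_le_nhds
  have hnum : ∀ η, 1 - ζ η * w = -(η * I * w) := by
    intro η
    have hwc : (w : ℂ) ≠ 0 := ofReal_ne_zero.2 hw0
    simp only [hζ, ofReal_div, ofReal_one]
    field_simp
    ring
  have hbound : ∀ᶠ η in 𝓝[>] (0 : ℝ),
      ∀ v, ‖C v * ((1 - ζ η * w) / (1 - ζ η * v))‖ ≤ ‖C v‖ * K := by
    filter_upwards [hnorm] with η ⟨h1, h2, h3⟩ v
    by_cases hv : C v = 0
    · simp [hv]
    rw [norm_mul]
    refine mul_le_mul_of_nonneg_left ?_ (norm_nonneg _)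
    rw [norm_div, hnum, norm_neg, norm_mul, norm_mul, norm_I, mul_one, norm_real, norm_real,
      Real.norm_of_nonneg h2.le, Real.norm_eq_abs]
    have hnum0 : 0 ≤ η * |w| := by positivity
    rcases hsupp v hv with hreal | hle
    · refine le_trans ?_ (le_max_left _ _)
      have hv' : ‖v‖ = |v.re| := (abs_re_eq_norm.2 hreal).symm
      by_cases hbig : |w| / 2 ≤ ‖v‖
      · have him : η * ‖v‖ ≤ ‖1 - ζ η * v‖ := by
          refine le_trans (le_of_eq ?_) (abs_im_le_norm _)
          simp only [hζ, sub_im, one_im, mul_im, add_re, add_im, ofReal_re, ofReal_im, mul_re, I_re,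
            I_im, hreal]
          rw [hv']
          simp [abs_mul, abs_of_pos h2]
        have hpos : 0 < η * ‖v‖ := mul_pos h2 (lt_of_lt_of_le (by positivity) hbig)
        rw [div_le_iff₀ (hpos.trans_le him)]
        nlinarith
      · have hre : (1 : ℝ) / 2 ≤ ‖1 - ζ η * v‖ := by
          refine le_trans ?_ (re_le_norm _)
          simp only [hζ, sub_re, one_re, mul_re, add_re, add_im, ofReal_re, ofReal_im, mul_im, I_re,
            I_im, hreal]
          rw [not_le] at hbig
          have h4 : 1 / w * v.re ≤ 1 / 2 := by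
            refine le_trans (le_abs_self _) ?_
            rw [abs_mul, ← hv', abs_div, abs_one, div_mul_eq_mul_div, one_mul,
              div_le_iff₀ (abs_pos.2 hw0)]
            linarith
          linarith
        rw [div_le_iff₀ (lt_of_lt_of_le (by norm_num) hre)]
        nlinarith
    · refine le_trans ?_ (le_max_right _ _)
      have hge : 1 - ρ * r ≤ ‖1 - ζ η * v‖ := by
        refine le_trans ?_ (norm_one_sub_mul_ge v _)
        nlinarith [norm_nonneg v, norm_nonneg (ζ η)]
      exact div_le_div₀ zero_le_one h3 (by linarith) hge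
  have hpoint : ∀ v, Tendsto (fun η => C v * ((1 - ζ η * w) / (1 - ζ η * v))) (𝓝[>] 0)
      (𝓝 (if v = (w : ℂ) then C v else 0)) := by
    intro v
    by_cases hvw : v = (w : ℂ)
    · rw [if_pos hvw]
      refine tendsto_const_nhds.congr' ?_
      filter_upwards [eventually_mem_nhdsWithin] with η hη
      rw [hvw, div_self, mul_one]
      rw [hnum]
      simp [ne_of_gt (show (0 : ℝ) < η from hη), hw0]
    · rw [if_neg hvw]
      have h0 : 1 - ζ 0 * v ≠ 0 := by
        simp only [hζ, ofReal_zero, zero_mul, add_zero, ofReal_div, ofReal_one]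
        intro h
        apply hvw
        have hwc : (w : ℂ) ≠ 0 := ofReal_ne_zero.2 hw0
        field_simp at h
        linear_combination -h
      have hc : ContinuousAt (fun η : ℝ => C v * ((1 - ζ η * w) / (1 - ζ η * v))) 0 := by
        refine continuousAt_const.mul (ContinuousAt.div ?_ ?_ h0) <;> fun_prop
      have := hc.tendsto.mono_left (nhdsWithin_le_nhds (s := Set.Ioi 0))
      simpa [hnum] using this
  have hlim := tendsto_tsum_of_dominated_convergence (hC.mul_right K) hpoint hbound
  rw [tsum_ite_eq] at hlim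
  refine tendsto_nhds_unique (hlim.congr' ?_) (tendsto_const_nhds (x := (0 : ℂ)))
  filter_upwards [hnorm] with η ⟨h1, h2, _⟩
  have him : 0 < (ζ η).im := by simpa [hζ] using h2
  have := tsum_div_eq_zero_of_upper hC hR hR0 hm hsupp hρ0 hρr h1 him
  calc ∑' v, C v * ((1 - ζ η * w) / (1 - ζ η * v))
      = (1 - ζ η * w) * ∑' v, C v / (1 - ζ η * v) := by
        rw [← tsum_mul_left]; exact tsum_congr fun v => by ring
    _ = 0 := by rw [this, mul_zero]

/-- A point of the unit circle carries no mass if everything lies in the closed unit disc. -/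
theorem eq_zero_of_norm_eq_one (hC : Summable fun v => ‖C v‖)
    (hsupp : ∀ v, C v ≠ 0 → ‖v‖ ≤ 1) (hm : ∀ n : ℕ, ∑' v, C v * v ^ n = 0)
    {w : ℂ} (hw : ‖w‖ = 1) : C w = 0 := by
  have hw0 : w ≠ 0 := fun h => by rw [h, norm_zero] at hw; exact zero_ne_one hw
  obtain ⟨a, ha⟩ : ∃ a : ℕ → ℂ → ℂ,
      a = fun N v => C v * ((∑ n ∈ Finset.range N, (v / w) ^ n) / N) := ⟨_, rfl⟩
  have hnorm : ∀ v, C v ≠ 0 → ‖v / w‖ ≤ 1 := fun v hv => by
    rw [norm_div, hw, div_one]; exact hsupp v hv
  have hbound : ∀ N v, ‖a N v‖ ≤ ‖C v‖ := by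
    intro N v
    by_cases hv : C v = 0
    · simp [ha, hv]
    rw [ha]
    simp only [norm_mul, norm_div, Complex.norm_natCast]
    refine mul_le_of_le_one_right (norm_nonneg _) (div_le_one_of_le₀ ?_ (Nat.cast_nonneg _))
    refine (norm_sum_le _ _).trans (le_trans (Finset.sum_le_sum fun n _ => ?_) (le_of_eq
      (show ∑ _n ∈ Finset.range N, (1 : ℝ) = N by simp)))
    rw [norm_pow]
    exact pow_le_one₀ (norm_nonneg _) (hnorm v hv)
  have hzero : ∀ N, ∑' v, a N v = 0 := by
    intro N
    have hsum : ∀ n, Summable fun v => C v * v ^ n * (w⁻¹ ^ n / N) := fun n => by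
      suffices h : Summable fun v => C v * v ^ n from h.mul_right (w⁻¹ ^ n / (N : ℂ))
      refine Summable.of_norm_bounded hC fun v => ?_
      by_cases hv : C v = 0
      · simp [hv]
      rw [norm_mul, norm_pow]
      exact mul_le_of_le_one_right (norm_nonneg _) (pow_le_one₀ (norm_nonneg _) (hsupp v hv))
    calc ∑' v, a N v = ∑' v, ∑ n ∈ Finset.range N, C v * v ^ n * (w⁻¹ ^ n / N) := by
          refine tsum_congr fun v => ?_
          simp only [ha, Finset.sum_div, Finset.mul_sum]
          exact Finset.sum_congr rfl fun n _ => by rw [div_pow, inv_pow]; ring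
      _ = ∑ n ∈ Finset.range N, ∑' v, C v * v ^ n * (w⁻¹ ^ n / N) :=
          Summable.tsum_finsetSum fun n _ => hsum n
      _ = 0 := Finset.sum_eq_zero fun n _ => by rw [tsum_mul_right, hm n, zero_mul]
  have hpoint : ∀ v, Tendsto (fun N => a N v) atTop (𝓝 (if v = w then C v else 0)) := by
    intro v
    by_cases hvw : v = w
    · rw [if_pos hvw]
      refine tendsto_const_nhds.congr' ?_
      filter_upwards [eventually_gt_atTop 0] with N hN
      simp only [ha, hvw, div_self hw0, one_pow, Finset.sum_const, Finset.card_range,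
        nsmul_eq_mul, mul_one]
      rw [div_self (Nat.cast_ne_zero.2 (by omega)), mul_one]
    · rw [if_neg hvw]
      by_cases hv : C v = 0
      · simp [ha, hv]
      have hne : v / w - 1 ≠ 0 := by
        rw [sub_ne_zero]
        exact fun h => hvw (by rwa [div_eq_one_iff_eq hw0] at h)
      suffices hb : ∀ N : ℕ, ‖a N v‖ ≤ ‖C v‖ * (2 / ‖v / w - 1‖) / (N : ℝ) from
        squeeze_zero_norm hb (tendsto_const_div_atTop_nhds_zero_nat (‖C v‖ * (2 / ‖v / w - 1‖)))
      intro N
      have hgeom : a N v = C v * (((v / w) ^ N - 1) / (v / w - 1) / N) := by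
        rw [ha]
        dsimp only
        rw [geom_sum_eq (sub_ne_zero.1 hne)]
      rw [hgeom, mul_div_assoc, norm_mul]
      refine mul_le_mul_of_nonneg_left ?_ (norm_nonneg _)
      rw [norm_div, Complex.norm_natCast]
      refine div_le_div_of_nonneg_right ?_ (Nat.cast_nonneg _)
      rw [norm_div]
      refine div_le_div_of_nonneg_right ?_ (norm_nonneg _)
      refine (norm_sub_le _ _).trans ?_
      rw [norm_pow, norm_one]
      linarith [pow_le_one₀ (norm_nonneg _) (hnorm v hv) (n := N)]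
  have hlim := tendsto_tsum_of_dominated_convergence hC hpoint
    (Eventually.of_forall fun N v => hbound N v)
  rw [tsum_ite_eq] at hlim
  exact tendsto_nhds_unique hlim (tendsto_const_nhds.congr fun N => (hzero N).symm)

/-- Moments with large exponents determine a discrete measure on the unit circle and the real
line away from `0`. -/
theorem eq_zero_of_moments (hC : Summable fun v => ‖C v‖)
    (hR : ∀ v, C v ≠ 0 → ‖v‖ ≤ R) (hsupp : ∀ v, C v ≠ 0 → v.im = 0 ∨ ‖v‖ = 1) (n₀ : ℕ)
    (hm : ∀ n, n₀ ≤ n → ∑' v, C v * v ^ n = 0) {w : ℂ} (hw : w ≠ 0) : C w = 0 := by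
  set R' := max R 0 with hR'
  set D : ℂ → ℂ := fun v => C v * v ^ n₀ with hD
  have hne : ∀ {v}, D v ≠ 0 → C v ≠ 0 := fun hv h => hv (by simp [hD, h])
  have hRD : ∀ v, D v ≠ 0 → ‖v‖ ≤ R' := fun v hv => (hR v (hne hv)).trans (le_max_left _ _)
  have hDs : Summable fun v => ‖D v‖ := by
    refine Summable.of_nonneg_of_le (fun v => norm_nonneg _) (fun v => ?_) (hC.mul_right (R' ^ n₀))
    by_cases hv : C v = 0
    · simp [hD, hv]
    rw [hD, norm_mul, norm_pow]
    exact mul_le_mul_of_nonneg_left (pow_le_pow_left₀ (norm_nonneg _)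
      ((hR v hv).trans (le_max_left _ _)) _) (norm_nonneg _)
  have hmD : ∀ n : ℕ, ∑' v, D v * v ^ n = 0 := fun n => by
    rw [← hm (n₀ + n) (Nat.le_add_right _ _)]
    exact tsum_congr fun v => by rw [hD, mul_assoc, ← pow_add]
  have hreal : ∀ v : ℂ, v.im = 0 → v = ((v.re : ℝ) : ℂ) := fun v h => ext (by simp) (by simp [h])
  have hbig : ∀ v, D v ≠ 0 → ‖v‖ ≤ 1 := fun v hv => by
    rcases hsupp v (hne hv) with him | h1
    · by_contra hlt
      rw [not_le] at hlt
      refine hv ?_
      rw [hreal v him]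
      exact eq_zero_of_real hDs hRD (le_max_right _ _) hmD zero_le_one
        (fun u hu => (hsupp u (hne hu)).imp_right le_of_eq)
        (by rwa [← abs_re_eq_norm.2 him] at hlt)
    · exact h1.le
  have hcirc : ∀ v, ‖v‖ = 1 → D v = 0 := fun v hv => eq_zero_of_norm_eq_one hDs hbig hmD hv
  suffices h : D w = 0 by
    simp only [hD, mul_eq_zero, pow_eq_zero_iff', hw, false_and, or_false] at h
    exact h
  by_contra hDw
  rcases hsupp w (hne hDw) with him | h1
  · refine hDw ?_
    rw [hreal w him]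
    refine eq_zero_of_real hDs hRD (le_max_right _ _) hmD le_rfl (fun u hu => Or.inl ?_) ?_
    · exact (hsupp u (hne hu)).resolve_right fun h => hu (hcirc u h)
    · rw [abs_re_eq_norm.2 him]; exact norm_pos_iff.2 hw
  · exact hDw (hcirc w h1)

/-- **Separation by moments.** -/
theorem fibreSum_eq_zero_of_moments {ι : Type*} (c z : ι → ℂ) (R : ℝ) (n₀ : ℕ)
    (hc : Summable fun i => ‖c i‖) (hR : ∀ i, ‖z i‖ ≤ R)
    (hz : ∀ i, (z i).im = 0 ∨ ‖z i‖ = 1)
    (hm : ∀ n, n₀ ≤ n → ∑' i, c i * z i ^ n = 0) {w : ℂ} (hw : w ≠ 0) :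
    fibreSum z c w = 0 := by
  have hex : ∀ v, fibreSum z c v ≠ 0 → ∃ i, z i = v := fun v hv => by
    by_contra h
    have : IsEmpty {i // z i = v} := ⟨fun i => h ⟨i, i.2⟩⟩
    exact hv tsum_empty
  refine eq_zero_of_moments (R := R) (summable_norm_fibreSum z c hc)
    (fun v hv => by obtain ⟨i, rfl⟩ := hex v hv; exact hR i)
    (fun v hv => by obtain ⟨i, rfl⟩ := hex v hv; exact hz i) n₀ (fun n hn => ?_) hw
  rw [(hasSum_fibreSum_mul z c (fun v => v ^ n) ?_ hc.of_norm).tsum_eq, hm n hn]
  refine Summable.of_norm_bounded (hc.mul_right (R ^ n)) fun i => ?_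
  rw [norm_mul, norm_pow]
  exact mul_le_mul_of_nonneg_left (pow_le_pow_left₀ (norm_nonneg _) (hR i) n) (norm_nonneg _)

end Fermat.Agent.LT.Separation
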