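import Fermat.Agent.LT.Separation.Joint
import Mathlib.Analysis.Real.Sqrt

/-!
# Separation at the auxiliary split place

For a real Hecke parameter `x` let `α` be a root of `α + α⁻¹ = x`. The traces of the test functions
at the split place are `α ^ n + α⁻¹ ^ n`, up to terms with parameter of absolute value `< 1`
(special representations). These traces, together with the Hecke eigenvalues, separate.
-/

set_option autoImplicit false

namespace Fermat.Agent.LT.Separation

open Complex

/-- The root of `T² - xT + 1` of absolute value at least one. -/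
noncomputable def satakeRoot (x : ℝ) : ℂ :=
  if |x| ≤ 2 then ⟨x / 2, Real.sqrt (4 - x ^ 2) / 2⟩
  else (((x + if 0 ≤ x then Real.sqrt (x ^ 2 - 4) else -Real.sqrt (x ^ 2 - 4)) / 2 : ℝ) : ℂ)

theorem satakeRoot_mul_sub (x : ℝ) : satakeRoot x * ((x : ℂ) - satakeRoot x) = 1 := by
  unfold satakeRoot
  split_ifs with h h0
  · have h4 : (0 : ℝ) ≤ 4 - x ^ 2 := by nlinarith [sq_abs x, abs_nonneg x]
    have hs := Real.sq_sqrt h4
    apply Complex.ext <;> simp
    · nlinarith
    · ring
  · have hs := Real.sq_sqrt (show (0 : ℝ) ≤ x ^ 2 - 4 by nlinarith [sq_abs x, abs_nonneg x])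
    rw [← ofReal_sub, ← ofReal_mul, ← ofReal_one, ofReal_inj]
    nlinarith
  · have hs := Real.sq_sqrt (show (0 : ℝ) ≤ x ^ 2 - 4 by nlinarith [sq_abs x, abs_nonneg x])
    rw [← ofReal_sub, ← ofReal_mul, ← ofReal_one, ofReal_inj]
    nlinarith

theorem satakeRoot_ne_zero (x : ℝ) : satakeRoot x ≠ 0 := fun h => by
  have := satakeRoot_mul_sub x
  rw [h, zero_mul] at this
  exact zero_ne_one this

theorem satakeRoot_inv (x : ℝ) : (satakeRoot x)⁻¹ = (x : ℂ) - satakeRoot x :=
  inv_eq_of_mul_eq_one_right (satakeRoot_mul_sub x)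

theorem satakeRoot_add_inv (x : ℝ) : satakeRoot x + (satakeRoot x)⁻¹ = (x : ℂ) := by
  rw [satakeRoot_inv]; ring

theorem satakeRoot_im_or_norm (x : ℝ) : (satakeRoot x).im = 0 ∨ ‖satakeRoot x‖ = 1 := by
  unfold satakeRoot
  split_ifs with h h0
  · refine Or.inr ?_
    have hs := Real.sq_sqrt (show (0 : ℝ) ≤ 4 - x ^ 2 by nlinarith [sq_abs x, abs_nonneg x])
    rw [norm_def, Real.sqrt_eq_one, normSq_apply]
    nlinarith
  · exact Or.inl (ofReal_im _)
  · exact Or.inl (ofReal_im _)

theorem one_le_norm_satakeRoot (x : ℝ) : 1 ≤ ‖satakeRoot x‖ := by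
  unfold satakeRoot
  split_ifs with h h0
  · have hs := Real.sq_sqrt (show (0 : ℝ) ≤ 4 - x ^ 2 by nlinarith [sq_abs x, abs_nonneg x])
    rw [norm_def, Real.one_le_sqrt, normSq_apply]
    nlinarith
  · rw [norm_real, Real.norm_eq_abs]
    rw [not_le, abs_of_nonneg h0] at h
    have := Real.sqrt_nonneg (x ^ 2 - 4)
    exact le_trans (by linarith) (le_abs_self _)
  · rw [norm_real, Real.norm_eq_abs]
    rw [not_le, abs_of_neg (not_le.1 h0)] at h
    have := Real.sqrt_nonneg (x ^ 2 - 4)
    exact le_trans (by linarith) (neg_le_abs _)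

theorem norm_satakeRoot_le (x : ℝ) : ‖satakeRoot x‖ ≤ |x| + 1 := by
  have h1 := one_le_norm_satakeRoot x
  have h2 : ‖(satakeRoot x)⁻¹‖ ≤ 1 := by rw [norm_inv]; exact inv_le_one_of_one_le₀ h1
  have h3 : satakeRoot x = (x : ℂ) - (satakeRoot x)⁻¹ := by rw [satakeRoot_inv]; ring
  rw [h3]
  exact (norm_sub_le _ _).trans (by rw [norm_real, Real.norm_eq_abs]; linarith)

theorem norm_inv_satakeRoot_le (x : ℝ) : ‖(satakeRoot x)⁻¹‖ ≤ 1 := by
  rw [norm_inv]; exact inv_le_one_of_one_le₀ (one_le_norm_satakeRoot x)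

theorem satakeRoot_inv_im_or_norm (x : ℝ) :
    ((satakeRoot x)⁻¹).im = 0 ∨ ‖(satakeRoot x)⁻¹‖ = 1 :=
  (satakeRoot_im_or_norm x).imp (fun h => by rw [inv_im, h, neg_zero, zero_div])
    (fun h => by rw [norm_inv, h, inv_one])

/-- The trace `α ^ n + α⁻¹ ^ n` at the parameter `x`. -/
noncomputable def splitTrace (x : ℝ) (n : ℕ) : ℂ := satakeRoot x ^ n + (satakeRoot x)⁻¹ ^ n

theorem splitTrace_zero (x : ℝ) : splitTrace x 0 = 2 := by
  simp only [splitTrace, pow_zero]; norm_num

theorem splitTrace_one (x : ℝ) : splitTrace x 1 = (x : ℂ) := by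
  simp only [splitTrace, pow_one]; exact satakeRoot_add_inv x

theorem splitTrace_add_two (x : ℝ) (n : ℕ) :
    splitTrace x (n + 2) = (x : ℂ) * splitTrace x (n + 1) - splitTrace x n := by
  rw [← satakeRoot_add_inv x]
  simp only [splitTrace]
  have h := mul_inv_cancel₀ (satakeRoot_ne_zero x)
  linear_combination (-(satakeRoot x ^ n) - (satakeRoot x)⁻¹ ^ n) * h

/-- Any root gives the same trace. -/
theorem pow_add_inv_pow_eq_splitTrace {a : ℂ} {x : ℝ} (ha : a ≠ 0) (hx : a + a⁻¹ = (x : ℂ)) :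
    ∀ n : ℕ, a ^ n + a⁻¹ ^ n = splitTrace x n := by
  intro n
  induction n using Nat.twoStepInduction with
  | zero => rw [splitTrace_zero]; norm_num
  | one => rw [splitTrace_one, pow_one, pow_one, hx]
  | more n h0 h1 =>
    rw [splitTrace_add_two, ← h0, ← h1, ← hx]
    have h := mul_inv_cancel₀ ha
    linear_combination (-(a ^ n) - a⁻¹ ^ n) * h

theorem satakeRoot_injective : Function.Injective satakeRoot := fun x y h => by
  have h' := satakeRoot_add_inv x
  rw [h, satakeRoot_add_inv] at h'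
  exact_mod_cast h'.symm

variable {ι κ J : Type*}

/-- **Separation at the split place.** Vanishing of all mixed traces, with extra terms of parameter
of absolute value `< 1`, kills every class `{x = x₀, λ = L}`. -/
theorem tsum_indicator_splitClass_eq_zero (c : ι → ℂ) (x : ι → ℝ) (lam : ι → J → ℝ)
    (d e : κ → ℂ) (lam' : κ → J → ℝ) (Bx : ℝ) (B : J → ℝ) (n₀ : ℕ)
    (hc : Summable fun i => ‖c i‖) (hx : ∀ i, |x i| ≤ Bx) (hB : ∀ i j, |lam i j| ≤ B j)
    (hd : Summable fun k => ‖d k‖) (he : ∀ k, ‖e k‖ < 1) (her : ∀ k, (e k).im = 0)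
    (hB' : ∀ k j, |lam' k j| ≤ B j)
    (hm : ∀ (m : J →₀ ℕ) (n : ℕ), n₀ ≤ n →
      ∑' i, c i * splitTrace (x i) n * eigMonomial lam m i +
        ∑' k, d k * e k ^ n * eigMonomial lam' m k = 0)
    (x₀ : ℝ) (L : J → ℝ) :
    ∑' i, Set.indicator {i | x i = x₀ ∧ lam i = L} c i = 0 := by
  let z : (ι ⊕ ι) ⊕ κ → ℂ :=
    Sum.elim (Sum.elim (fun i => satakeRoot (x i)) fun i => (satakeRoot (x i))⁻¹) e
  let C : (ι ⊕ ι) ⊕ κ → ℂ := Sum.elim (Sum.elim c c) d
  let l : (ι ⊕ ι) ⊕ κ → J → ℝ := Sum.elim (Sum.elim lam lam) lam'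
  have hC : Summable fun s => ‖C s‖ := by
    refine Summable.sum _ (Summable.sum _ ?_ ?_) ?_
    · exact hc
    · exact hc
    · exact hd
  have hz : ∀ s, ‖z s‖ ≤ |Bx| + 1 := by
    rintro ((i | i) | k)
    · exact (norm_satakeRoot_le _).trans (by linarith [hx i, le_abs_self Bx])
    · exact (norm_inv_satakeRoot_le _).trans (by linarith [abs_nonneg Bx])
    · exact (he k).le.trans (by linarith [abs_nonneg Bx])
  have hzs : ∀ s, (z s).im = 0 ∨ ‖z s‖ = 1 := by
    rintro ((i | i) | k)
    · exact satakeRoot_im_or_norm _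
    · exact satakeRoot_inv_im_or_norm _
    · exact Or.inl (her k)
  have hl : ∀ s j, |l s j| ≤ B j := by
    rintro ((i | i) | k) j
    · exact hB i j
    · exact hB i j
    · exact hB' k j
  have hmom : ∀ (m : J →₀ ℕ) (n : ℕ), n₀ ≤ n →
      ∑' s, C s * z s ^ n * eigMonomial l m s = 0 := by
    intro m n hn
    have hs : Summable fun s => C s * z s ^ n * eigMonomial l m s := by
      refine Summable.of_norm_bounded
        ((summable_mul_eigMonomial C l B hC hl m).mul_right ((|Bx| + 1) ^ n)) fun s => ?_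
      rw [mul_right_comm, norm_mul _ (z s ^ n), norm_pow]
      exact mul_le_mul_of_nonneg_left (pow_le_pow_left₀ (norm_nonneg _) (hz s) n) (norm_nonneg _)
    have h1 := hs.comp_injective Sum.inl_injective
    have h2 := hs.comp_injective Sum.inr_injective
    have h11 := h1.comp_injective Sum.inl_injective
    have h12 := h1.comp_injective Sum.inr_injective
    rw [← hm m n hn, Summable.tsum_sum (f := fun s => C s * z s ^ n * eigMonomial l m s) h1 h2]
    congr 1
    have e := Summable.tsum_sum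
      (f := fun s : ι ⊕ ι => C (Sum.inl s) * z (Sum.inl s) ^ n * eigMonomial l m (Sum.inl s))
      h11 h12
    refine Eq.trans (e.trans (h11.tsum_add h12).symm) ?_
    refine tsum_congr fun i => ?_
    simp only [Function.comp_apply, C, z, l, Sum.elim_inl, Sum.elim_inr, eigMonomial, splitTrace]
    ring
  have key := tsum_indicator_class_eq_zero C z l (|Bx| + 1) B n₀ hC hz hzs hl hmom
    (satakeRoot_ne_zero x₀) L
  set w := satakeRoot x₀
  have hsum : Summable (Set.indicator {s | z s = w ∧ l s = L} C) := hC.of_norm.indicator _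
  have h1 := hsum.comp_injective Sum.inl_injective
  have h2 := hsum.comp_injective Sum.inr_injective
  have h11 := h1.comp_injective Sum.inl_injective
  have h12 := h1.comp_injective Sum.inr_injective
  have e2 := Summable.tsum_sum (f := Set.indicator {s | z s = w ∧ l s = L} C) h1 h2
  have e1 := Summable.tsum_sum
    (f := fun s : ι ⊕ ι => Set.indicator {s | z s = w ∧ l s = L} C (Sum.inl s)) h11 h12
  rw [e2, e1] at key
  change _ + _ + ∑' k, (Set.indicator {s | z s = w ∧ l s = L} C ∘ Sum.inr) k = 0 at key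
  replace key := (congrArg (· + _) (h11.tsum_add h12)).trans key
  have hzero : ∀ k, (Set.indicator {s | z s = w ∧ l s = L} C ∘ Sum.inr) k = 0 := fun k => by
    refine Set.indicator_of_notMem (fun h => ?_) _
    have := one_le_norm_satakeRoot x₀
    rw [show satakeRoot x₀ = e k from h.1.symm] at this
    linarith [he k]
  rw [tsum_congr hzero, tsum_zero, add_zero] at key
  set f : ℂ := if ‖w‖ = 1 ∧ w.im = 0 then 2 else 1 with hf
  have hfne : f ≠ 0 := by rw [hf]; split_ifs <;> norm_num
  refine mul_left_cancel₀ hfne (Eq.trans ?_ (mul_zero f).symm)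
  rw [← tsum_mul_left, ← key]
  refine tsum_congr fun i => ?_
  classical
  simp only [Function.comp_apply, C, z, l, Sum.elim_inl, Sum.elim_inr, Set.indicator_apply,
    Set.mem_ofPred_eq]
  by_cases hL : lam i = L
  swap
  · simp [hL]
  simp only [hL, and_true]
  have hiff : satakeRoot (x i) = w ↔ x i = x₀ := satakeRoot_injective.eq_iff
  have hinv : (satakeRoot (x i))⁻¹ = w ↔ x i = x₀ ∧ ‖w‖ = 1 ∧ w.im = 0 := by
    constructor
    · intro h
      have hxx : x i = x₀ := by
        have h' := satakeRoot_add_inv (x i)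
        rw [h, ← inv_inv (satakeRoot (x i)), h, add_comm, satakeRoot_add_inv] at h'
        exact_mod_cast h'.symm
      rw [hxx] at h
      refine ⟨hxx, le_antisymm ?_ (one_le_norm_satakeRoot x₀), ?_⟩
      · rw [← h]; exact norm_inv_satakeRoot_le x₀
      · have h1 : normSq w = 1 := by
          rw [normSq_eq_norm_sq, le_antisymm ((congrArg norm h.symm).le.trans (norm_inv_satakeRoot_le x₀))
            (one_le_norm_satakeRoot x₀), one_pow]
        have h' := congrArg Complex.im h
        rw [inv_im, h1, div_one] at h'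
        linarith
    · rintro ⟨hxx, h1, h2⟩
      rw [hxx]
      rw [inv_def, normSq_eq_norm_sq, h1, conj_eq_iff_im.2 h2]
      simp
  by_cases hxi : x i = x₀
  · by_cases hspecial : ‖w‖ = 1 ∧ w.im = 0
    · rw [if_pos hxi, if_pos (hiff.2 hxi), if_pos (hinv.2 ⟨hxi, hspecial⟩), hf, if_pos hspecial]
      ring
    · rw [if_pos hxi, if_pos (hiff.2 hxi), if_neg (fun h => hspecial (hinv.1 h).2), hf,
        if_neg hspecial]
      ring
  · rw [if_neg hxi, if_neg (fun h => hxi (hiff.1 h)), if_neg (fun h => hxi (hinv.1 h).1)]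
    ring

end Fermat.Agent.LT.Separation
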